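/-
Cluster GAL: the exact statement of the key lemma KL (owner of this file: helper39).

`KL N A n`: an element `u = P / Q` of the function field of `X₀(N)` over `ℚ̄`, where `P`, `Q` have
`A`-integral `q`-expansions with the same nonzero reduction (i.e. `u ≡ 1` for the Gauss valuation
attached to `A`), and whose divisor is divisible by `n`, is an `n`-th power.
-/
import Mathlib
import Fermat.Prelude.Def_ModularCurve_ReductionModL
import Fermat.Prelude.Def_FLTPrelim_Ramification

set_option autoImplicit false

namespace Fermat.Agent.GAL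

open ModularCurve AlgebraicCurve

/-- The key lemma at level `N`, for the valuation subring `A` of `ℚ̄` and the exponent `n`. -/
def KL (N : ℕ) (A : ValuationSubring (AlgebraicClosure ℚ)) (n : ℕ) : Prop :=
  ∀ (P Q : LaurentSeries A)
    (hP : coeffMap A.subtype P ∈ modularFunctionFieldBar N)
    (hQ : coeffMap A.subtype Q ∈ modularFunctionFieldBar N),
    coeffMap (IsLocalRing.residue A) P = coeffMap (IsLocalRing.residue A) Q →
    coeffMap (IsLocalRing.residue A) Q ≠ 0 →
    (∀ v : Place (AlgebraicClosure ℚ) (modularFunctionFieldBar N),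
      (n : ℤ) ∣ v.ord ((⟨coeffMap A.subtype P, hP⟩ : modularFunctionFieldBar N) /
        ⟨coeffMap A.subtype Q, hQ⟩)) →
    ∃ u : modularFunctionFieldBar N,
      (⟨coeffMap A.subtype P, hP⟩ : modularFunctionFieldBar N) / ⟨coeffMap A.subtype Q, hQ⟩ = u ^ n

/-- The statement to be proved by the routes KL-A and KL-B. -/
def KLStatement : Prop :=
  ∀ (N : ℕ) [NeZero N] (ℓ : ℕ) [Fact ℓ.Prime], ¬ ℓ ∣ N →
    ∀ A : ValuationSubring (AlgebraicClosure ℚ), A.LiesOverPrime ℓ →
      ∀ n : ℕ, ¬ ℓ ∣ n → KL N A n

end Fermat.Agent.GAL
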