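/-
Cluster GAL, block 04 / In6 (owner of this file: helper267).

Level change for the key lemma `KL`: if `N ∣ M` and the degree `ψ(M)/ψ(N)` of `F_M / F_N` is prime
to `n`, then `KL M A n → KL N A n` (norm argument).  Consequently `KLStatement` only has to be
proved at levels divisible by `2` (for `ℓ = 3`), by `3` (for `ℓ = 2`), or, if one prefers never to
use the base `j`, at levels divisible by `2` or `3`.
-/
import Mathlib
import Fermat.Agent.GAL.KLStatement
import Fermat.Agent.S24.Export.Ramification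
import Fermat.Agent.S20.IndexGamma0
import Fermat.Prelude.Def_AlgebraicCurve_DivisorPushPull

set_option autoImplicit false

namespace Fermat.Agent.GAL

open ModularCurve AlgebraicCurve IntermediateField
open Fermat.Agent.S24 (Kbar FN jF)

section FieldTheory

/-- If `h ∈ F` becomes an `n`-th power in a finite extension `E` of degree `d`, then `h ^ d` is an
`n`-th power in `F`. -/
theorem exists_pow_finrank_eq_pow {F E : Type*} [Field F] [Field E] [Algebra F E]
    {n : ℕ} (h : F) (u : E) (hu : algebraMap F E h = u ^ n) :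
    ∃ s : F, h ^ Module.finrank F E = s ^ n :=
  ⟨Algebra.norm F u, by rw [← Algebra.norm_algebraMap, hu, map_pow]⟩

/-- If `h ^ a` and `h ^ b` are `n`-th powers and `gcd (gcd a b) n = 1` then `h` is an `n`-th
power. -/
theorem exists_eq_pow_of_coprime {F : Type*} [Field F] {n a b : ℕ}
    (hcop : Nat.Coprime (Nat.gcd a b) n) (h s t : F) (hs : h ^ a = s ^ n) (ht : h ^ b = t ^ n) :
    ∃ r : F, h = r ^ n := by
  rcases eq_or_ne h 0 with rfl | h0
  · rcases Nat.eq_zero_or_pos n with rfl | hn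
    · -- then `gcd a b = 1`, so not both `a`, `b` vanish, contradiction with `0 ^ a = 1`
      exfalso
      rw [Nat.coprime_zero_right] at hcop
      rcases Nat.eq_zero_or_pos a with rfl | ha
      · rw [Nat.gcd_zero_left] at hcop
        subst hcop
        simp at ht
      · rw [zero_pow ha.ne', pow_zero] at hs
        exact zero_ne_one hs
    · exact ⟨0, (zero_pow hn.ne').symm⟩
  · -- Bezout
    have h1 : ((Nat.gcd (Nat.gcd a b) n : ℕ) : ℤ) = 1 := by rw [hcop]; rfl
    rw [Nat.gcd_eq_gcd_ab, Nat.gcd_eq_gcd_ab a b] at h1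
    set x := Nat.gcdA (Nat.gcd a b) n
    set y := Nat.gcdB (Nat.gcd a b) n
    set x' := Nat.gcdA a b
    set y' := Nat.gcdB a b
    refine ⟨s ^ (x' * x) * t ^ (y' * x) * h ^ y, ?_⟩
    have e1 : (s ^ (x' * x)) ^ n = (h ^ (a : ℤ)) ^ (x' * x) := by
      rw [zpow_natCast, hs, ← zpow_natCast (s ^ (x' * x)) n, ← zpow_natCast s n, ← zpow_mul,
        ← zpow_mul, mul_comm]
    have e2 : (t ^ (y' * x)) ^ n = (h ^ (b : ℤ)) ^ (y' * x) := by
      rw [zpow_natCast, ht, ← zpow_natCast (t ^ (y' * x)) n, ← zpow_natCast t n, ← zpow_mul,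
        ← zpow_mul, mul_comm]
    have e3 : (h ^ y) ^ n = h ^ ((n : ℤ) * y) := by
      rw [← zpow_natCast (h ^ y) n, ← zpow_mul, mul_comm]
    rw [mul_pow, mul_pow, e1, e2, e3, ← zpow_mul, ← zpow_mul, ← zpow_add₀ h0, ← zpow_add₀ h0]
    have : (a : ℤ) * (x' * x) + (b : ℤ) * (y' * x) + (n : ℤ) * y = 1 := by
      rw [← h1]; ring
    rw [this, zpow_one]

/-- Multiplicativity of degrees in the tower `K(x) ⊆ F ⊆ E`. -/
theorem finrank_adjoin_mul {K F E : Type*} [Field K] [Field F] [Field E] [Algebra K F] [Algebra K E]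
    [Algebra F E] [IsScalarTower K F E] (x : F) :
    Module.finrank K⟮x⟯ F * Module.finrank F E = Module.finrank K⟮algebraMap F E x⟯ E := by
  have hmap : (K⟮x⟯).map (IsScalarTower.toAlgHom K F E) = K⟮algebraMap F E x⟯ := by
    rw [IntermediateField.adjoin_map, Set.image_singleton]
    rfl
  have h1 : Module.finrank K⟮x⟯ E =
      Module.finrank ((K⟮x⟯).map (IsScalarTower.toAlgHom K F E)) E :=
    Algebra.finrank_eq_of_equiv_equiv
      (IntermediateField.equivMap K⟮x⟯ (IsScalarTower.toAlgHom K F E)).toRingEquiv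
      (RingEquiv.refl E) (RingHom.ext fun y => rfl)
  rw [Module.finrank_mul_finrank, h1, hmap]

end FieldTheory

section Levels

variable {N M : ℕ}

theorem FN_le (hNM : N ∣ M) [NeZero N] [NeZero M] :
    modularFunctionFieldBar N ≤ modularFunctionFieldBar M := by
  unfold modularFunctionFieldBar
  conv_lhs => unfold laurentBaseChange
  rw [IntermediateField.adjoin_le_iff]
  rintro _ ⟨y, hy, rfl⟩
  exact coeffEmb_mem_laurentBaseChange _ (full_degeneracy_le hNM hy)

/-- The inclusion `F_N → F_M` for `N ∣ M`. -/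
noncomputable def levelIncl (hNM : N ∣ M) [NeZero N] [NeZero M] : FN N →ₐ[Kbar] FN M :=
  IntermediateField.inclusion (FN_le hNM)

theorem coe_levelIncl (hNM : N ∣ M) [NeZero N] [NeZero M] (x : FN N) :
    ((levelIncl hNM x : FN M) : LaurentSeries Kbar) = x :=
  IntermediateField.coe_inclusion (FN_le hNM) x

theorem levelIncl_mk (hNM : N ∣ M) [NeZero N] [NeZero M] (x : LaurentSeries Kbar)
    (hx : x ∈ modularFunctionFieldBar N) :
    levelIncl hNM ⟨x, hx⟩ = ⟨x, FN_le hNM hx⟩ :=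
  Subtype.ext (coe_levelIncl hNM _)

theorem levelIncl_jF (hNM : N ∣ M) [NeZero N] [NeZero M] : levelIncl hNM (jF N) = jF M := by
  apply Subtype.ext
  rw [coe_levelIncl]
  unfold jF S24.JF
  rfl

/-- `ψ(N) * [F_M : F_N] = ψ(M)`. -/
theorem dedekindPsi_mul_finrank (hNM : N ∣ M) [NeZero N] [NeZero M] :
    letI := (levelIncl hNM).toRingHom.toAlgebra
    dedekindPsi N * Module.finrank (FN N) (FN M) = dedekindPsi M := by
  letI := (levelIncl hNM).toRingHom.toAlgebra
  have : IsScalarTower Kbar (FN N) (FN M) :=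
    IsScalarTower.of_algebraMap_eq fun a => ((levelIncl hNM).commutes a).symm
  have h2 := finrank_adjoin_mul (K := Kbar) (F := FN N) (E := FN M) (jF N)
  have h3 : algebraMap (FN N) (FN M) (jF N) = jF M := levelIncl_jF hNM
  rw [h3, S24.Export.finrank_eq_index, S24.Export.finrank_eq_index,
    S20.Combinatorics.index_Gamma0 N (NeZero.ne N),
    S20.Combinatorics.index_Gamma0 M (NeZero.ne M)] at h2
  exact h2

theorem dedekindPsi_pos (M : ℕ) [NeZero M] : 0 < dedekindPsi M := by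
  rw [← S20.Combinatorics.index_Gamma0 M (NeZero.ne M)]
  exact Nat.pos_of_ne_zero Subgroup.FiniteIndex.index_ne_zero

/-- The core of the level change: under `KL M A n`, the `d`-th power of an element of `F_N`
satisfying the hypotheses of `KL N A n` is an `n`-th power in `F_N`, `d = ψ(M)/ψ(N)`. -/
theorem exists_pow_eq_pow_of_KL (hNM : N ∣ M) [NeZero N] [NeZero M]
    {A : ValuationSubring (AlgebraicClosure ℚ)} {n d : ℕ}
    (hd : dedekindPsi M = dedekindPsi N * d) (hKL : KL M A n)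
    (P Q : LaurentSeries A)
    (hP : coeffMap A.subtype P ∈ modularFunctionFieldBar N)
    (hQ : coeffMap A.subtype Q ∈ modularFunctionFieldBar N)
    (hPQ : coeffMap (IsLocalRing.residue A) P = coeffMap (IsLocalRing.residue A) Q)
    (hQ0 : coeffMap (IsLocalRing.residue A) Q ≠ 0)
    (hdiv : ∀ v : Place (AlgebraicClosure ℚ) (modularFunctionFieldBar N),
      (n : ℤ) ∣ v.ord ((⟨coeffMap A.subtype P, hP⟩ : modularFunctionFieldBar N) /
        ⟨coeffMap A.subtype Q, hQ⟩)) :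
    ∃ s : modularFunctionFieldBar N,
      ((⟨coeffMap A.subtype P, hP⟩ : modularFunctionFieldBar N) / ⟨coeffMap A.subtype Q, hQ⟩) ^ d
        = s ^ n := by
  letI := (levelIncl hNM).toRingHom.toAlgebra
  have : IsScalarTower Kbar (FN N) (FN M) :=
    IsScalarTower.of_algebraMap_eq fun a => ((levelIncl hNM).commutes a).symm
  have hfin := dedekindPsi_mul_finrank hNM
  have hdeg : Module.finrank (FN N) (FN M) = d := by
    rw [hd] at hfin
    exact Nat.eq_of_mul_eq_mul_left (dedekindPsi_pos N) hfin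
  have hdpos : 0 < d := by
    rcases Nat.eq_zero_or_pos d with rfl | h
    · rw [mul_zero] at hd
      exact absurd hd (dedekindPsi_pos M).ne'
    · exact h
  have : FiniteDimensional (FN N) (FN M) :=
    Module.finite_of_finrank_pos (by rw [hdeg]; exact hdpos)
  set h : FN N := (⟨coeffMap A.subtype P, hP⟩ : modularFunctionFieldBar N) /
    ⟨coeffMap A.subtype Q, hQ⟩ with hh
  have hmap : (⟨coeffMap A.subtype P, FN_le hNM hP⟩ : modularFunctionFieldBar M) /
      ⟨coeffMap A.subtype Q, FN_le hNM hQ⟩ = algebraMap (FN N) (FN M) h := by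
    rw [hh, map_div₀]
    exact congrArg₂ (· / ·) (levelIncl_mk hNM _ hP).symm (levelIncl_mk hNM _ hQ).symm
  obtain ⟨u, hu⟩ := hKL P Q (FN_le hNM hP) (FN_le hNM hQ) hPQ hQ0 (by
    intro w
    rw [hmap, Place.ord_restrict]
    exact Dvd.dvd.mul_left (hdiv _) _)
  rw [hmap] at hu
  obtain ⟨s, hs⟩ := exists_pow_finrank_eq_pow h u hu
  exact ⟨s, by rw [← hdeg]; exact hs⟩

/-- Level change: `KL M A n → KL N A n` if `N ∣ M` and `ψ(M)/ψ(N)` is prime to `n`. -/
theorem KL_of_dvd (hNM : N ∣ M) [NeZero N] [NeZero M]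
    {A : ValuationSubring (AlgebraicClosure ℚ)} {n d : ℕ}
    (hd : dedekindPsi M = dedekindPsi N * d) (hcop : Nat.Coprime d n) (hKL : KL M A n) :
    KL N A n := by
  intro P Q hP hQ hPQ hQ0 hdiv
  obtain ⟨s, hs⟩ := exists_pow_eq_pow_of_KL hNM hd hKL P Q hP hQ hPQ hQ0 hdiv
  exact exists_eq_pow_of_coprime (a := d) (b := d) (by rwa [Nat.gcd_self]) _ s s hs hs

/-- Level change using two auxiliary levels. -/
theorem KL_of_dvd_of_dvd {M' : ℕ} (hNM : N ∣ M) (hNM' : N ∣ M') [NeZero N] [NeZero M] [NeZero M']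
    {A : ValuationSubring (AlgebraicClosure ℚ)} {n d d' : ℕ}
    (hd : dedekindPsi M = dedekindPsi N * d) (hd' : dedekindPsi M' = dedekindPsi N * d')
    (hcop : Nat.Coprime (Nat.gcd d d') n) (hKL : KL M A n) (hKL' : KL M' A n) :
    KL N A n := by
  intro P Q hP hQ hPQ hQ0 hdiv
  obtain ⟨s, hs⟩ := exists_pow_eq_pow_of_KL hNM hd hKL P Q hP hQ hPQ hQ0 hdiv
  obtain ⟨t, ht⟩ := exists_pow_eq_pow_of_KL hNM' hd' hKL' P Q hP hQ hPQ hQ0 hdiv
  exact exists_eq_pow_of_coprime hcop _ s t hs ht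

end Levels

section Reduction

/-- `KL (2 N) → KL N` for odd `N` and `3 ∤ n`. -/
theorem KL_of_two_mul {N : ℕ} [NeZero N] (hN : ¬ 2 ∣ N)
    {A : ValuationSubring (AlgebraicClosure ℚ)} {n : ℕ} (hn : ¬ 3 ∣ n) (h : KL (2 * N) A n) :
    KL N A n := by
  have : NeZero (2 * N) := ⟨mul_ne_zero two_ne_zero (NeZero.ne N)⟩
  refine KL_of_dvd (d := 3) (Dvd.intro_left 2 rfl) ?_ ?_ h
  · rw [S20.Combinatorics.dedekindPsi_mul_of_not_dvd (NeZero.ne N) Nat.prime_two hN, mul_comm]
  · exact (Nat.Prime.coprime_iff_not_dvd Nat.prime_three).2 hn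

/-- `KL (3 N) → KL N` for `3 ∤ N` and odd `n`. -/
theorem KL_of_three_mul {N : ℕ} [NeZero N] (hN : ¬ 3 ∣ N)
    {A : ValuationSubring (AlgebraicClosure ℚ)} {n : ℕ} (hn : ¬ 2 ∣ n) (h : KL (3 * N) A n) :
    KL N A n := by
  have : NeZero (3 * N) := ⟨mul_ne_zero three_ne_zero (NeZero.ne N)⟩
  refine KL_of_dvd (d := 4) (Dvd.intro_left 3 rfl) ?_ ?_ h
  · rw [S20.Combinatorics.dedekindPsi_mul_of_not_dvd (NeZero.ne N) Nat.prime_three hN, mul_comm]
  · have : Nat.Coprime 2 n := (Nat.Prime.coprime_iff_not_dvd Nat.prime_two).2 hn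
    exact Nat.Coprime.pow_left 2 this

/-- `KL (2 N)` and `KL (3 N)` imply `KL N` for `N` prime to `6` and every `n`. -/
theorem KL_of_two_mul_of_three_mul {N : ℕ} [NeZero N] (hN2 : ¬ 2 ∣ N) (hN3 : ¬ 3 ∣ N)
    {A : ValuationSubring (AlgebraicClosure ℚ)} {n : ℕ} (h2 : KL (2 * N) A n)
    (h3 : KL (3 * N) A n) : KL N A n := by
  have : NeZero (2 * N) := ⟨mul_ne_zero two_ne_zero (NeZero.ne N)⟩
  have : NeZero (3 * N) := ⟨mul_ne_zero three_ne_zero (NeZero.ne N)⟩
  refine KL_of_dvd_of_dvd (d := 3) (d' := 4) (Dvd.intro_left 2 rfl) (Dvd.intro_left 3 rfl)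
    ?_ ?_ ?_ h2 h3
  · rw [S20.Combinatorics.dedekindPsi_mul_of_not_dvd (NeZero.ne N) Nat.prime_two hN2, mul_comm]
  · rw [S20.Combinatorics.dedekindPsi_mul_of_not_dvd (NeZero.ne N) Nat.prime_three hN3, mul_comm]
  · have : Nat.gcd 3 4 = 1 := by decide
    rw [this]
    exact Nat.coprime_one_left n

/-- First reduction: it suffices to prove `KL` at levels `N` with `2 ∣ N` when `ℓ = 3` and `3 ∣ N`
when `ℓ = 2` (no condition for `ℓ ≥ 5`, where the base `j` is available). -/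
theorem KLStatement_of_special
    (H : ∀ (N : ℕ) [NeZero N] (ℓ : ℕ) [Fact ℓ.Prime], ¬ ℓ ∣ N → (ℓ = 3 → 2 ∣ N) → (ℓ = 2 → 3 ∣ N) →
      ∀ A : ValuationSubring (AlgebraicClosure ℚ), A.LiesOverPrime ℓ →
        ∀ n : ℕ, ¬ ℓ ∣ n → KL N A n) : KLStatement := by
  intro N _ ℓ _ hℓN A hA n hℓn
  by_cases h3 : ℓ = 3
  · subst h3
    by_cases h2N : 2 ∣ N
    · exact H N 3 hℓN (fun _ => h2N) (fun h => absurd h (by decide)) A hA n hℓn
    · haveI : NeZero (2 * N) := ⟨mul_ne_zero two_ne_zero (NeZero.ne N)⟩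
      refine KL_of_two_mul h2N hℓn (H (2 * N) 3 ?_ (fun _ => Dvd.intro _ rfl)
        (fun h => absurd h (by decide)) A hA n hℓn)
      intro h
      rcases (Nat.Prime.dvd_mul Nat.prime_three).1 h with h | h
      · exact absurd h (by decide)
      · exact hℓN h
  by_cases h2 : ℓ = 2
  · subst h2
    by_cases h3N : 3 ∣ N
    · exact H N 2 hℓN (fun h => absurd h (by decide)) (fun _ => h3N) A hA n hℓn
    · haveI : NeZero (3 * N) := ⟨mul_ne_zero three_ne_zero (NeZero.ne N)⟩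
      refine KL_of_three_mul h3N hℓn (H (3 * N) 2 ?_ (fun h => absurd h (by decide))
        (fun _ => Dvd.intro _ rfl) A hA n hℓn)
      intro h
      rcases (Nat.Prime.dvd_mul Nat.prime_two).1 h with h | h
      · exact absurd h (by decide)
      · exact hℓN h
  · exact H N ℓ hℓN (fun h => absurd h h3) (fun h => absurd h h2) A hA n hℓn

/-- Second reduction (never uses the base `j`): it suffices to prove `KL` at levels `N` divisible by
a prime `r ∈ {2, 3}`, `r ≠ ℓ`. -/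
theorem KLStatement_of_hauptmodul
    (H : ∀ (N : ℕ) [NeZero N] (ℓ : ℕ) [Fact ℓ.Prime] (r : ℕ), ¬ ℓ ∣ N → (r = 2 ∨ r = 3) → r ≠ ℓ →
      r ∣ N → ∀ A : ValuationSubring (AlgebraicClosure ℚ), A.LiesOverPrime ℓ →
        ∀ n : ℕ, ¬ ℓ ∣ n → KL N A n) : KLStatement := by
  refine KLStatement_of_special ?_
  intro N _ ℓ hℓ hℓN h3 h2 A hA n hℓn
  by_cases e3 : ℓ = 3
  · exact H N ℓ 2 hℓN (Or.inl rfl) (by rw [e3]; decide) (h3 e3) A hA n hℓn
  by_cases e2 : ℓ = 2
  · exact H N ℓ 3 hℓN (Or.inr rfl) (by rw [e2]; decide) (h2 e2) A hA n hℓn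
  by_cases h2N : 2 ∣ N
  · exact H N ℓ 2 hℓN (Or.inl rfl) (Ne.symm e2) h2N A hA n hℓn
  by_cases h3N : 3 ∣ N
  · exact H N ℓ 3 hℓN (Or.inr rfl) (Ne.symm e3) h3N A hA n hℓn
  have : NeZero (2 * N) := ⟨mul_ne_zero two_ne_zero (NeZero.ne N)⟩
  have : NeZero (3 * N) := ⟨mul_ne_zero three_ne_zero (NeZero.ne N)⟩
  have hp : ℓ.Prime := hℓ.out
  refine KL_of_two_mul_of_three_mul h2N h3N
    (H (2 * N) ℓ 2 ?_ (Or.inl rfl) (Ne.symm e2) (Dvd.intro _ rfl) A hA n hℓn)
    (H (3 * N) ℓ 3 ?_ (Or.inr rfl) (Ne.symm e3) (Dvd.intro _ rfl) A hA n hℓn)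
  · intro h
    rcases (Nat.Prime.dvd_mul hp).1 h with h | h
    · exact e2 ((Nat.prime_dvd_prime_iff_eq hp Nat.prime_two).1 h)
    · exact hℓN h
  · intro h
    rcases (Nat.Prime.dvd_mul hp).1 h with h | h
    · exact e3 ((Nat.prime_dvd_prime_iff_eq hp Nat.prime_three).1 h)
    · exact hℓN h

end Reduction

end Fermat.Agent.GAL
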