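/-
Cluster GAL (helper31): the UNIVERSAL Hecke-Galois tower.

`UTower N p S` is what the geometric part (Kummer model `W_k` of `J₀(N)[p ^ k]`, multiplier map to
`Λ / p ^ k`, `Λ = Hom_par(Γ₀(N), ℤ)`, faithfulness of the Hecke algebra on `Λ`) has to deliver.
It does not mention any eigensystem.  Consumers:
* `UTower.level` : for every ring homomorphism `χ` from the Hecke algebra to an integrally closed
  domain of characteristic zero, all layers `Fermat.Agent.S30.Level N p S (aOf χ) k`  (input of S30);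
* `Fermat.Agent.S31.heckeTraceCongruence_of_utower` (input of S31).
-/
import Fermat.Agent.S30.Defs

set_option autoImplicit false

namespace Fermat.Agent.GAL

open Fermat.Agent.S30 CuspForm

/-- The Hecke operators `T_ℓ` as a function of `ℓ` (zero at the bad indices). -/
noncomputable def heckeFun (N : ℕ) [NeZero N] (S : Finset ℕ) (ℓ : ℕ) :
    heckeAlgebra N 2 (↑S : Set ℕ) :=
  open Classical in
  if h : ℓ.Prime ∧ ¬ ℓ ∣ N ∧ ℓ ∉ (↑S : Set ℕ) then heckeAlgebra.T h.1 h.2.1 h.2.2 else 0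

theorem heckeFun_eq {N : ℕ} [NeZero N] {S : Finset ℕ} {ℓ : ℕ} (hℓ : ℓ.Prime) (hℓN : ¬ ℓ ∣ N)
    (hℓS : ℓ ∉ (↑S : Set ℕ)) : heckeFun N S ℓ = heckeAlgebra.T hℓ hℓN hℓS := by
  unfold heckeFun
  rw [dif_pos ⟨hℓ, hℓN, hℓS⟩]

/-- The universal Hecke-Galois tower of level `N` at `p`, away from `S`. -/
structure UTower (N p : ℕ) [NeZero N] (S : Finset ℕ) : Type 1 where
  /-- a lattice with a faithful action of the Hecke algebra -/
  Lam : Type
  [instLam : AddCommGroup Lam]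
  [freeLam : Module.Free ℤ Lam]
  [finiteLam : Module.Finite ℤ Lam]
  ι : heckeAlgebra N 2 (↑S : Set ℕ) →+* Module.End ℤ Lam
  ι_injective : Function.Injective ι
  /-- the layers -/
  W : ℕ → Type
  [instW : ∀ k, AddCommGroup (W k)]
  [moduleW : ∀ k, Module HA (W k)]
  ρ : ∀ k, GQ →* Module.End HA (W k)
  pow_smul : ∀ (k : ℕ) (w : W k), (p ^ k : ℕ) • w = 0
  finiteLevel : ∀ k : ℕ, ∃ L : IntermediateField ℚ (AlgebraicClosure ℚ), FiniteDimensional ℚ L ∧
    ∀ σ : GQ, (∀ x ∈ L, σ x = x) → ρ k σ = 1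
  unramified : ∀ (k q : ℕ), q.Prime → ¬ q ∣ N → q ≠ p → ∀ σ : GQ, IsInertia σ q → ρ k σ = 1
  eichlerShimura : ∀ (k ℓ : ℕ), ℓ.Prime → ℓ ∉ S → ∀ σ : GQ, IsFrob σ ℓ →
    ∀ w : W k, ρ k σ (ρ k σ w) - (MvPolynomial.X ℓ : HA) • ρ k σ w + (ℓ : ℕ) • w = 0
  /-- a Hecke polynomial killing the `k`-th layer is divisible by `p ^ k` on the lattice -/
  faithful : ∀ (k : ℕ) (P : HA), (∀ w : W k, P • w = 0) →
    ∃ E : Module.End ℤ Lam, ι (MvPolynomial.aeval (heckeFun N S) P) = (p ^ k : ℕ) • E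

attribute [instance] UTower.instLam UTower.freeLam UTower.finiteLam UTower.instW UTower.moduleW

end Fermat.Agent.GAL
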