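/-
Cluster GAL, block 15 (helper31): final assembly of the universal tower.

`LayerData N n` packages what the blocks E (Kummer model, Galois action, Hecke operators,
Eichler-Shimura, inertia), KL and M/NV (multiplier equivalence) deliver at one exponent `n`.
`utowerOfLayers` builds `UTower N p S` from layers at all `n = p ^ k`, using the lattice
`Lam N = Hom_par(Γ₀(N), ℤ)` and the faithful action `latHom` of block H.
-/
import Fermat.Agent.GAL.UTower
import Fermat.Agent.Lib.HeckeHom.Faithful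

set_option autoImplicit false
set_option linter.style.haveILetI false

namespace Fermat.Agent.GAL

open Fermat.Agent.S30 CuspForm CongruenceSubgroup Fermat.Agent.Lib.HeckeHom
open Fermat.Agent.S16.Lift (homPE card_homPE)

/-- One layer of the Kummer model together with its multiplier equivalence. -/
structure LayerData (N : ℕ) [NeZero N] (n : ℕ) : Type 1 where
  W : Type
  [instW : AddCommGroup W]
  rho : GQ →* AddMonoid.End W
  TT : ∀ ℓ : ℕ, ℓ.Prime → ¬ ℓ ∣ N → AddMonoid.End W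
  commute : ∀ (ℓ : ℕ) (hℓ : ℓ.Prime) (hℓN : ¬ ℓ ∣ N) (σ : GQ), Commute (rho σ) (TT ℓ hℓ hℓN)
  level : ∀ x : W, ∃ L : IntermediateField ℚ (AlgebraicClosure ℚ), FiniteDimensional ℚ L ∧
    ∀ σ : GQ, (∀ y ∈ L, σ y = y) → rho σ x = x
  inertia : ∀ q : ℕ, q.Prime → ¬ q ∣ N → ¬ q ∣ n → ∀ σ : GQ, IsInertia σ q → rho σ = 1
  eichlerShimura : ∀ (ℓ : ℕ) (hℓ : ℓ.Prime) (hℓN : ¬ ℓ ∣ N), ¬ ℓ ∣ n → ∀ σ : GQ, IsFrob σ ℓ →
    ∀ x : W, rho σ (rho σ x) - TT ℓ hℓ hℓN (rho σ x) + ℓ • x = 0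
  mult : W ≃+ homPE N (ZMod n)
  mult_TT : ∀ (ℓ : ℕ) (hℓ : ℓ.Prime) (hℓN : ¬ ℓ ∣ N) (x : W),
    ((mult (TT ℓ hℓ hℓN x) : homPE N (ZMod n)) : Additive (Gamma0 N) →+ ZMod n) =
      heckeHomT hℓ hℓN (mult x).1

attribute [instance] LayerData.instW

section Layer

variable {N : ℕ} [NeZero N] (S : Finset ℕ) {n : ℕ} (D : LayerData N n)

/-- The Galois action transported to `Hom_{par,ell}(Γ₀(N), ℤ/n)`. -/
noncomputable def LayerData.r (σ : GQ) : homPE N (ZMod n) →+ homPE N (ZMod n) :=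
  (D.mult.toAddMonoidHom.comp (D.rho σ)).comp D.mult.symm.toAddMonoidHom

theorem LayerData.r_apply (σ : GQ) (w : homPE N (ZMod n)) :
    D.r σ w = D.mult (D.rho σ (D.mult.symm w)) := rfl

theorem LayerData.r_mult (σ : GQ) (x : D.W) : D.r σ (D.mult x) = D.mult (D.rho σ x) := by
  rw [D.r_apply, AddEquiv.symm_apply_apply]

theorem LayerData.X_smul_mult {ℓ : ℕ} (hℓ : ℓ.Prime) (hℓN : ¬ ℓ ∣ N) (hℓS : ℓ ∉ (↑S : Set ℕ))
    (x : D.W) :
    letI := moduleHA N (↑S : Set ℕ) n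
    (MvPolynomial.X ℓ : HA) • D.mult x = D.mult (D.TT ℓ hℓ hℓN x) := by
  apply Subtype.ext
  rw [coe_X_smul N (↑S : Set ℕ) n hℓ hℓN hℓS, D.mult_TT]

omit D in
theorem X_smul_of_bad {ℓ : ℕ} (h : ¬ (ℓ.Prime ∧ ¬ ℓ ∣ N ∧ ℓ ∉ (↑S : Set ℕ)))
    (w : homPE N (ZMod n)) :
    letI := moduleHA N (↑S : Set ℕ) n
    (MvPolynomial.X ℓ : HA) • w = 0 := by
  rw [moduleHA_smul_def, polyHom_X]
  unfold tOf
  rw [dif_neg h, map_zero, LinearMap.zero_apply]

theorem LayerData.r_X_smul (σ : GQ) (ℓ : ℕ) (w : homPE N (ZMod n)) :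
    letI := moduleHA N (↑S : Set ℕ) n
    D.r σ ((MvPolynomial.X ℓ : HA) • w) = (MvPolynomial.X ℓ : HA) • D.r σ w := by
  by_cases h : ℓ.Prime ∧ ¬ ℓ ∣ N ∧ ℓ ∉ (↑S : Set ℕ)
  · obtain ⟨x, rfl⟩ := D.mult.surjective w
    rw [D.X_smul_mult S h.1 h.2.1 h.2.2, D.r_mult, D.r_mult, D.X_smul_mult S h.1 h.2.1 h.2.2]
    congr 1
    exact congrArg (fun f => f x) (D.commute ℓ h.1 h.2.1 σ).eq
  · rw [X_smul_of_bad S h, X_smul_of_bad S h, map_zero]

theorem LayerData.r_smul (σ : GQ) (P : HA) (w : homPE N (ZMod n)) :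
    letI := moduleHA N (↑S : Set ℕ) n
    D.r σ (P • w) = P • D.r σ w := by
  letI := moduleHA N (↑S : Set ℕ) n
  induction P using MvPolynomial.induction_on generalizing w with
  | C a =>
    have h : ∀ v : homPE N (ZMod n), (MvPolynomial.C a : HA) • v = a • v := by
      intro v
      rw [moduleHA_smul_def]
      have : polyHom N (↑S : Set ℕ) (MvPolynomial.C a) = (a : heckeAlgebra N 2 (↑S : Set ℕ)) := by
        simp [polyHom]
      rw [this, map_intCast]
      simp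
    rw [h, h, map_zsmul]
  | add P Q hP hQ => rw [add_smul, add_smul, map_add, hP, hQ]
  | mul_X P ℓ hP => rw [mul_smul, mul_smul, hP, D.r_X_smul S]

/-- The transported Galois action as a representation by `ℤ[X_ℓ]`-linear maps. -/
noncomputable def LayerData.ρ :
    letI := moduleHA N (↑S : Set ℕ) n
    GQ →* Module.End HA (homPE N (ZMod n)) :=
  letI := moduleHA N (↑S : Set ℕ) n
  { toFun := fun σ =>
      { toFun := D.r σ
        map_add' := map_add _
        map_smul' := fun P w => D.r_smul S σ P w }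
    map_one' := by
      refine LinearMap.ext fun w => ?_
      show D.r 1 w = w
      rw [D.r_apply, map_one]
      exact D.mult.apply_symm_apply w
    map_mul' := fun σ τ => by
      refine LinearMap.ext fun w => ?_
      show D.r (σ * τ) w = D.r σ (D.r τ w)
      rw [D.r_apply, D.r_apply, D.r_apply, map_mul, AddEquiv.symm_apply_apply]
      rfl }

theorem LayerData.ρ_apply (σ : GQ) (w : homPE N (ZMod n)) :
    letI := moduleHA N (↑S : Set ℕ) n
    D.ρ S σ w = D.r σ w := rfl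

theorem LayerData.ρ_eq_one {σ : GQ} (h : D.rho σ = 1) :
    letI := moduleHA N (↑S : Set ℕ) n
    D.ρ S σ = 1 := by
  letI := moduleHA N (↑S : Set ℕ) n
  refine LinearMap.ext fun w => ?_
  rw [D.ρ_apply, D.r_apply, h]
  exact D.mult.apply_symm_apply w

theorem LayerData.finiteLevel (hn : 0 < n) :
    letI := moduleHA N (↑S : Set ℕ) n
    ∃ L : IntermediateField ℚ (AlgebraicClosure ℚ), FiniteDimensional ℚ L ∧
      ∀ σ : GQ, (∀ x ∈ L, σ x = x) → D.ρ S σ = 1 := by
  letI := moduleHA N (↑S : Set ℕ) n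
  have hfin : Finite (homPE N (ZMod n)) :=
    Nat.finite_of_card_ne_zero (by rw [card_homPE N n hn]; exact pow_ne_zero _ hn.ne')
  have : Finite D.W := Finite.of_equiv _ D.mult.symm.toEquiv
  have := Fintype.ofFinite D.W
  choose L hLfin hL using D.level
  refine ⟨⨆ x : D.W, L x, ?_, ?_⟩
  · have := hLfin
    exact IntermediateField.finiteDimensional_iSup_of_finite
  · intro σ hσ
    apply D.ρ_eq_one S
    refine AddMonoidHom.ext fun x => ?_
    exact hL x σ fun y hy => hσ y ((le_iSup L x) hy)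

end Layer

/-- An endomorphism of a free module of finite rank which is pointwise divisible by `c` is
divisible by `c`. -/
theorem exists_eq_nsmul_of_forall {M : Type*} [AddCommGroup M] [Module.Free ℤ M]
    (f : Module.End ℤ M) (c : ℕ) (h : ∀ x, ∃ y, f x = c • y) :
    ∃ E : Module.End ℤ M, f = c • E := by
  let b := Module.Free.chooseBasis ℤ M
  choose g hg using h
  refine ⟨b.constr ℤ fun i => g (b i), ?_⟩
  refine b.ext fun i => ?_
  rw [LinearMap.smul_apply, Module.Basis.constr_basis, hg]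

/-- **The universal tower from its layers.** -/
noncomputable def utowerOfLayers {N p : ℕ} [NeZero N] (hp : p.Prime) (S : Finset ℕ)
    (hNS : ∀ q : ℕ, q.Prime → q ∣ N → q ∈ S) (hpS : p ∈ S)
    (D : ∀ k : ℕ, LayerData N (p ^ k)) : UTower N p S where
  Lam := Lam N
  ι := latHom N (↑S : Set ℕ)
  ι_injective := latHom_injective N (↑S : Set ℕ)
  W := fun k => homPE N (ZMod (p ^ k))
  moduleW := fun k => moduleHA N (↑S : Set ℕ) (p ^ k)
  ρ := fun k => (D k).ρ S
  pow_smul := fun k w => nsmul_homPE_eq_zero N (p ^ k) w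
  finiteLevel := fun k => (D k).finiteLevel S (pow_pos hp.pos k)
  unramified := by
    intro k q hq hqN hqp σ hσ
    apply (D k).ρ_eq_one S
    exact (D k).inertia q hq hqN
      (fun h => hqp ((Nat.prime_dvd_prime_iff_eq hq hp).mp (hq.dvd_of_dvd_pow h))) σ hσ
  eichlerShimura := by
    intro k ℓ hℓ hℓS σ hσ w
    letI := moduleHA N (↑S : Set ℕ) (p ^ k)
    have hℓN : ¬ ℓ ∣ N := fun h => hℓS (hNS ℓ hℓ h)
    have hℓS' : ℓ ∉ (↑S : Set ℕ) := fun h => hℓS (Finset.mem_coe.mp h)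
    have hℓp : ¬ ℓ ∣ p ^ k := fun h =>
      hℓS (((Nat.prime_dvd_prime_iff_eq hℓ hp).mp (hℓ.dvd_of_dvd_pow h)) ▸ hpS)
    obtain ⟨x, rfl⟩ := (D k).mult.surjective w
    rw [(D k).ρ_apply, (D k).ρ_apply, (D k).r_mult, (D k).r_mult,
      (D k).X_smul_mult S hℓ hℓN hℓS', ← map_nsmul, ← map_sub, ← map_add,
      (D k).eichlerShimura ℓ hℓ hℓN hℓp σ hσ x, map_zero]
  faithful := by
    intro k P hP
    letI := moduleHA N (↑S : Set ℕ) (p ^ k)
    have h1 : actMod N (↑S : Set ℕ) (p ^ k) (polyHom N (↑S : Set ℕ) P) = 0 := LinearMap.ext hP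
    have h2 := (actMod_eq_zero_iff N (↑S : Set ℕ) (p ^ k) _).1 h1
    have h3 : MvPolynomial.aeval (heckeFun N S) P = polyHom N (↑S : Set ℕ) P := by
      have : heckeFun N S = tOf N (↑S : Set ℕ) := by
        funext ℓ
        by_cases h : ℓ.Prime ∧ ¬ ℓ ∣ N ∧ ℓ ∉ (↑S : Set ℕ)
        · rw [heckeFun_eq h.1 h.2.1 h.2.2, tOf_eq N _ h.1 h.2.1 h.2.2]
        · unfold heckeFun tOf
          rw [dif_neg h, dif_neg h]
      rw [this]
      rfl
    rw [h3]
    exact exists_eq_nsmul_of_forall _ _ h2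

end Fermat.Agent.GAL
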