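/-
Cluster GAL (chief architect helper216): THE INTERFACE between the geometric blocks
(E Kummer model, M multiplier map, NV surjectivity, H Hecke operators on `Hom(Γ₀(N), A)`)
and the consumers (`Fermat.Agent.S30.Level`, used by S30 for all `k` and by S29/S42 for `k = 1`).
This file contains definitions only.
-/
import Fermat.Agent.S30.Defs
import Fermat.Agent.Lib.HeckeHom.Gamma0
import Fermat.Agent.S16.Lift.Count

set_option autoImplicit false

namespace Fermat.Agent.GAL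

open Fermat.Agent.S30 CongruenceSubgroup

/-- Evaluation of a polynomial in `ℤ[X_ℓ]` at a commuting family of endomorphisms. -/
noncomputable def evalEnd {W : Type*} [AddCommGroup W] (T : ℕ → Module.End ℤ W)
    (hT : ∀ i j, Commute (T i) (T j)) : HA →ₐ[ℤ] Module.End ℤ W :=
  letI : CommRing (Algebra.adjoin ℤ (Set.range T)) :=
    Algebra.adjoinCommRingOfComm ℤ (by
      rintro _ ⟨i, rfl⟩ _ ⟨j, rfl⟩
      exact hT i j)
  (Algebra.adjoin ℤ (Set.range T)).val.comp
    (MvPolynomial.aeval fun i => (⟨T i, Algebra.subset_adjoin ⟨i, rfl⟩⟩ :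
      Algebra.adjoin ℤ (Set.range T)))

theorem evalEnd_X {W : Type*} [AddCommGroup W] (T : ℕ → Module.End ℤ W)
    (hT : ∀ i j, Commute (T i) (T j)) (i : ℕ) : evalEnd T hT (MvPolynomial.X i) = T i := by
  unfold evalEnd
  simp

/-- **Output of the geometric blocks E + M + NV** at level `N` and exponent `n`:
the Kummer group `W = {u ∈ F_N^× : n ∣ div u} / F_N^{× n}` (written additively) with the Galois
action on coefficients, the multiplicative Hecke operators `T ℓ` (`ℓ` prime, `ℓ ∤ N`; the other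
values of `T` are irrelevant), and the multiplier isomorphism onto `Hom_{par,ell}(Γ₀(N), ℤ/n)`. -/
structure KummerLevel (N n : ℕ) : Type 1 where
  W : Type
  [instAddCommGroup : AddCommGroup W]
  T : ℕ → Module.End ℤ W
  ρ : GQ →* Module.End ℤ W
  ρ_T : ∀ (g : GQ) (ℓ : ℕ), ℓ.Prime → ¬ ℓ ∣ N → Commute (ρ g) (T ℓ)
  finiteLevel : ∃ L : IntermediateField ℚ (AlgebraicClosure ℚ), FiniteDimensional ℚ L ∧
    ∀ σ : GQ, (∀ x ∈ L, σ x = x) → ρ σ = 1
  unramified : ∀ q : ℕ, q.Prime → ¬ q ∣ N * n → ∀ σ : GQ, IsInertia σ q → ρ σ = 1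
  eichlerShimura : ∀ ℓ : ℕ, ℓ.Prime → ¬ ℓ ∣ N * n → ∀ σ : GQ, IsFrob σ ℓ →
    ∀ w : W, ρ σ (ρ σ w) - T ℓ (ρ σ w) + (ℓ : ℕ) • w = 0
  mult : W ≃+ S16.Lift.homPE N (ZMod n)
  mult_T : ∀ (ℓ : ℕ) (hℓ : ℓ.Prime) (hℓN : ¬ ℓ ∣ N) (w : W),
    ((mult (T ℓ w) : S16.Lift.homPE N (ZMod n)) : Additive (Gamma0 N) →+ ZMod n) =
      Lib.HeckeHom.heckeHomT hℓ hℓN
        ((mult w : S16.Lift.homPE N (ZMod n)) : Additive (Gamma0 N) →+ ZMod n)

attribute [instance] KummerLevel.instAddCommGroup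

end Fermat.Agent.GAL
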