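/-
Cluster GAL (helper31): from the interface `KummerLevel` (helper216) to `LayerData`, hence to the
universal tower `UTower`.
-/
import Fermat.Agent.GAL.Tower
import Fermat.Agent.GAL.Interface

set_option autoImplicit false

namespace Fermat.Agent.GAL

open Fermat.Agent.S30 CongruenceSubgroup

/-- A `KummerLevel` is a `LayerData`. -/
noncomputable def LayerData.ofKummerLevel {N : ℕ} [NeZero N] {n : ℕ} (D : KummerLevel N n) :
    LayerData N n where
  W := D.W
  rho :=
    { toFun := fun σ => (D.ρ σ).toAddMonoidHom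
      map_one' := by rw [map_one]; rfl
      map_mul' := fun σ τ => by rw [map_mul]; rfl }
  TT := fun ℓ _ _ => (D.T ℓ).toAddMonoidHom
  commute := by
    intro ℓ hℓ hℓN σ
    refine AddMonoidHom.ext fun x => ?_
    exact congrArg (fun f => f x) (D.ρ_T σ ℓ hℓ hℓN).eq
  level := by
    intro x
    obtain ⟨L, hL, h⟩ := D.finiteLevel
    refine ⟨L, hL, fun σ hσ => ?_⟩
    show D.ρ σ x = x
    rw [h σ hσ]
    rfl
  inertia := by
    intro q hq hqN hqn σ hσ
    have h := D.unramified q hq (fun h => (hq.dvd_mul.mp h).elim hqN hqn) σ hσ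
    refine AddMonoidHom.ext fun x => ?_
    show D.ρ σ x = x
    rw [h]
    rfl
  eichlerShimura := by
    intro ℓ hℓ hℓN hℓn σ hσ x
    exact D.eichlerShimura ℓ hℓ (fun h => (hℓ.dvd_mul.mp h).elim hℓN hℓn) σ hσ x
  mult := D.mult
  mult_TT := fun ℓ hℓ hℓN x => D.mult_T ℓ hℓ hℓN x

/-- The universal tower from Kummer levels at all powers of `p`. -/
noncomputable def utowerOfKummer {N p : ℕ} [NeZero N] (hp : p.Prime) (S : Finset ℕ)
    (hNS : ∀ q : ℕ, q.Prime → q ∣ N → q ∈ S) (hpS : p ∈ S)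
    (D : ∀ k : ℕ, KummerLevel N (p ^ k)) : UTower N p S :=
  utowerOfLayers hp S hNS hpS fun k => LayerData.ofKummerLevel (D k)

end Fermat.Agent.GAL
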