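/-
Cluster GAL (skeleton by helper216).  TASK GAL-H5 (block H: helper119 / helper261; filled by
helper193 from `Lib/HeckeHom/Faithful.lean`).
What the top level needs from the Hecke action on `Hom(Γ₀(N), A)`.
-/
import Fermat.Agent.GAL.Interface
import Fermat.Agent.Lib.HeckeHom.Faithful

set_option autoImplicit false

namespace Fermat.Agent.GAL

open Fermat.Agent.S30 CongruenceSubgroup

variable {N n : ℕ} [NeZero N]

/-- the operators `T_ℓ` commute on `Hom_{par,ell}(Γ₀(N), ℤ/n)`. -/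
theorem heckeHomT_comm_of_mem_homPE (hn : 0 < n) {ℓ ℓ' : ℕ} (hℓ : ℓ.Prime) (hℓN : ¬ ℓ ∣ N)
    (hℓ' : ℓ'.Prime) (hℓ'N : ¬ ℓ' ∣ N) (ψ : Additive (Gamma0 N) →+ ZMod n)
    (hψ : ψ ∈ S16.Lift.homPE N (ZMod n)) :
    Lib.HeckeHom.heckeHomT hℓ hℓN (Lib.HeckeHom.heckeHomT hℓ' hℓ'N ψ) =
      Lib.HeckeHom.heckeHomT hℓ' hℓ'N (Lib.HeckeHom.heckeHomT hℓ hℓN ψ) := by
  have h1 := Lib.HeckeHom.coe_actMod_T N (∅ : Set ℕ) n hℓ hℓN (Set.notMem_empty _)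
  have h2 := Lib.HeckeHom.coe_actMod_T N (∅ : Set ℕ) n hℓ' hℓ'N (Set.notMem_empty _)
  have e1 := h1 ⟨ψ, hψ⟩
  have e2 := h2 ⟨ψ, hψ⟩
  simp only at e1 e2
  rw [← e1, ← e2, ← h1, ← h2, ← Module.End.mul_apply, ← Module.End.mul_apply, ← map_mul,
    ← map_mul, mul_comm]

namespace HInput

/-- the eigenvalues `aOf χ` are the values of `χ` at the family `tOf`. -/
theorem aOf_eq_comp_tOf (S : Finset ℕ) {𝒪 : Type} [CommRing 𝒪]
    (χ : CuspForm.heckeAlgebra N 2 (↑S : Set ℕ) →+* 𝒪) :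
    (fun ℓ => χ (Lib.HeckeHom.tOf N (↑S : Set ℕ) ℓ)) = aOf χ := by
  classical
  funext ℓ
  by_cases h : ℓ.Prime ∧ ¬ ℓ ∣ N ∧ ℓ ∉ (↑S : Set ℕ)
  · rw [Lib.HeckeHom.tOf_eq N _ h.1 h.2.1 h.2.2, aOf_eq χ h.1 h.2.1 h.2.2]
  · unfold Lib.HeckeHom.tOf aOf
    rw [dif_neg h, dif_neg h, map_zero]

/-- transport of the generators along the equivariant isomorphism `m`. -/
theorem map_T (S : Finset ℕ)
    {W : Type} [AddCommGroup W] (T : ℕ → Module.End ℤ W)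
    (hT0 : ∀ ℓ : ℕ, ¬ (ℓ.Prime ∧ ¬ ℓ ∣ N ∧ ℓ ∉ S) → T ℓ = 0)
    (m : W ≃+ S16.Lift.homPE N (ZMod n))
    (hm : ∀ (ℓ : ℕ) (hℓ : ℓ.Prime) (hℓN : ¬ ℓ ∣ N), ℓ ∉ S → ∀ w : W,
      ((m (T ℓ w) : S16.Lift.homPE N (ZMod n)) : Additive (Gamma0 N) →+ ZMod n) =
        Lib.HeckeHom.heckeHomT hℓ hℓN
          ((m w : S16.Lift.homPE N (ZMod n)) : Additive (Gamma0 N) →+ ZMod n))
    (ℓ : ℕ) (w : W) :
    m (T ℓ w) = Lib.HeckeHom.actMod N (↑S : Set ℕ) n (Lib.HeckeHom.tOf N (↑S : Set ℕ) ℓ) (m w) := by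
  by_cases h : ℓ.Prime ∧ ¬ ℓ ∣ N ∧ ℓ ∉ S
  · have hS : ℓ ∉ (↑S : Set ℕ) := by simpa using h.2.2
    have e1 := Lib.HeckeHom.tOf_eq N (↑S : Set ℕ) h.1 h.2.1 hS
    have e2 := Lib.HeckeHom.coe_actMod_T N (↑S : Set ℕ) n h.1 h.2.1 hS (m w)
    apply Subtype.ext
    rw [e1, e2]
    exact hm ℓ h.1 h.2.1 h.2.2 w
  · have h' : ¬ (ℓ.Prime ∧ ¬ ℓ ∣ N ∧ ℓ ∉ (↑S : Set ℕ)) := by simpa using h
    have e1 : Lib.HeckeHom.tOf N (↑S : Set ℕ) ℓ = 0 := by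
      unfold Lib.HeckeHom.tOf
      exact dif_neg h'
    rw [hT0 ℓ h, e1, map_zero, LinearMap.zero_apply, LinearMap.zero_apply, map_zero]

/-- transport of the polynomial action along the equivariant isomorphism `m`. -/
theorem map_evalEnd (S : Finset ℕ)
    {W : Type} [AddCommGroup W] (T : ℕ → Module.End ℤ W) (hT : ∀ i j, Commute (T i) (T j))
    (hT0 : ∀ ℓ : ℕ, ¬ (ℓ.Prime ∧ ¬ ℓ ∣ N ∧ ℓ ∉ S) → T ℓ = 0)
    (m : W ≃+ S16.Lift.homPE N (ZMod n))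
    (hm : ∀ (ℓ : ℕ) (hℓ : ℓ.Prime) (hℓN : ¬ ℓ ∣ N), ℓ ∉ S → ∀ w : W,
      ((m (T ℓ w) : S16.Lift.homPE N (ZMod n)) : Additive (Gamma0 N) →+ ZMod n) =
        Lib.HeckeHom.heckeHomT hℓ hℓN
          ((m w : S16.Lift.homPE N (ZMod n)) : Additive (Gamma0 N) →+ ZMod n))
    (P : HA) (w : W) :
    m (evalEnd T hT P w) =
      Lib.HeckeHom.actMod N (↑S : Set ℕ) n (Lib.HeckeHom.polyHom N (↑S : Set ℕ) P) (m w) := by
  induction P using MvPolynomial.induction_on generalizing w with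
  | C a =>
    rw [show (MvPolynomial.C a : HA) = ((a : ℤ) : HA) from eq_intCast MvPolynomial.C a,
      map_intCast, map_intCast, map_intCast, Module.End.intCast_apply, Module.End.intCast_apply,
      map_zsmul]
  | add P Q hP hQ =>
    rw [map_add, map_add, map_add, LinearMap.add_apply, LinearMap.add_apply, map_add, hP, hQ]
  | mul_X P ℓ hP =>
    rw [map_mul, map_mul, map_mul, Module.End.mul_apply, Module.End.mul_apply, hP, evalEnd_X,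
      Lib.HeckeHom.polyHom_X]
    exact congrArg _ (map_T S T hT0 m hm ℓ w)

end HInput

/-- **Faithfulness.**  If a polynomial in the `T_ℓ` (`ℓ ∉ S`) kills a module `W` which is
equivariantly isomorphic to `Hom_{par,ell}(Γ₀(N), ℤ/n)`, then its value at every eigensystem `χ`
with values in an integrally closed domain of characteristic zero is divisible by `n`. -/
theorem dvd_aeval_of_evalEnd_eq_zero (hn : 0 < n) (S : Finset ℕ)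
    {W : Type} [AddCommGroup W] (T : ℕ → Module.End ℤ W) (hT : ∀ i j, Commute (T i) (T j))
    (hT0 : ∀ ℓ : ℕ, ¬ (ℓ.Prime ∧ ¬ ℓ ∣ N ∧ ℓ ∉ S) → T ℓ = 0)
    (m : W ≃+ S16.Lift.homPE N (ZMod n))
    (hm : ∀ (ℓ : ℕ) (hℓ : ℓ.Prime) (hℓN : ¬ ℓ ∣ N), ℓ ∉ S → ∀ w : W,
      ((m (T ℓ w) : S16.Lift.homPE N (ZMod n)) : Additive (Gamma0 N) →+ ZMod n) =
        Lib.HeckeHom.heckeHomT hℓ hℓN
          ((m w : S16.Lift.homPE N (ZMod n)) : Additive (Gamma0 N) →+ ZMod n))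
    {𝒪 : Type} [CommRing 𝒪] [IsDomain 𝒪] [IsIntegrallyClosed 𝒪] [CharZero 𝒪]
    (χ : CuspForm.heckeAlgebra N 2 (↑S : Set ℕ) →+* 𝒪) (P : HA) (hP : evalEnd T hT P = 0) :
    (n : 𝒪) ∣ MvPolynomial.aeval (aOf χ) P := by
  have h0 : Lib.HeckeHom.actMod N (↑S : Set ℕ) n (Lib.HeckeHom.polyHom N (↑S : Set ℕ) P) = 0 := by
    refine LinearMap.ext fun x => ?_
    obtain ⟨w, rfl⟩ := m.surjective x
    rw [← HInput.map_evalEnd S T hT hT0 m hm P w, hP, LinearMap.zero_apply, map_zero,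
      LinearMap.zero_apply]
  have h1 := Lib.HeckeHom.natCast_dvd_of_actMod_eq_zero N (↑S : Set ℕ) n hn _ h0 χ
  rwa [Lib.HeckeHom.map_polyHom, HInput.aOf_eq_comp_tOf] at h1

end Fermat.Agent.GAL
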