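/-
Cluster GAL (skeleton by helper216).  TASK GAL-T1.
A `KummerLevel` gives a `Level` for every eigensystem.
-/
import Fermat.Agent.GAL.HInput

set_option autoImplicit false

namespace Fermat.Agent.GAL

open Fermat.Agent.S30 CongruenceSubgroup

/-- an endomorphism commuting with all `T i` commutes with all polynomials in the `T i`. -/
theorem commute_evalEnd {W : Type*} [AddCommGroup W] (T : ℕ → Module.End ℤ W)
    (hT : ∀ i j, Commute (T i) (T j)) (A : Module.End ℤ W) (hA : ∀ i, Commute A (T i)) (P : HA) :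
    Commute A (evalEnd T hT P) := by
  induction P using MvPolynomial.induction_on with
  | C a =>
    rw [← MvPolynomial.algebraMap_eq, AlgHom.commutes]
    exact (Algebra.commutes a A).symm
  | add p q hp hq =>
    rw [map_add]
    exact hp.add_right hq
  | mul_X p i hp =>
    rw [map_mul, evalEnd_X]
    exact hp.mul_right (hA i)

theorem KummerLevel.nonempty_level {N p k : ℕ} [NeZero N] [Fact p.Prime]
    (D : KummerLevel N (p ^ k)) (S : Finset ℕ) (hpS : p ∈ S)
    (hNS : ∀ q : ℕ, q.Prime → q ∣ N → q ∈ S)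
    {𝒪 : Type} [CommRing 𝒪] [IsDomain 𝒪] [IsIntegrallyClosed 𝒪] [CharZero 𝒪]
    (χ : CuspForm.heckeAlgebra N 2 (↑S : Set ℕ) →+* 𝒪) :
    Nonempty (Level N p S (aOf χ) k) := by
  classical
  have hp : p.Prime := Fact.out
  have hn : 0 < p ^ k := pow_pos hp.pos k
  let T' : ℕ → Module.End ℤ D.W := fun l => if l.Prime ∧ ¬ l ∣ N ∧ l ∉ S then D.T l else 0
  have hT'pos : ∀ l : ℕ, l.Prime ∧ ¬ l ∣ N ∧ l ∉ S → T' l = D.T l := fun l hl => if_pos hl
  have hT'neg : ∀ l : ℕ, ¬ (l.Prime ∧ ¬ l ∣ N ∧ l ∉ S) → T' l = 0 := fun l hl => if_neg hl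
  have hT' : ∀ i j, Commute (T' i) (T' j) := by
    intro i j
    by_cases hi : i.Prime ∧ ¬ i ∣ N ∧ i ∉ S
    · by_cases hj : j.Prime ∧ ¬ j ∣ N ∧ j ∉ S
      · rw [hT'pos i hi, hT'pos j hj]
        refine LinearMap.ext fun w => ?_
        apply D.mult.injective
        apply Subtype.ext
        rw [Module.End.mul_apply, Module.End.mul_apply, D.mult_T i hi.1 hi.2.1,
          D.mult_T j hj.1 hj.2.1, D.mult_T j hj.1 hj.2.1, D.mult_T i hi.1 hi.2.1]
        exact heckeHomT_comm_of_mem_homPE hn hi.1 hi.2.1 hj.1 hj.2.1 _ (D.mult w).2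
      · rw [hT'neg j hj]
        exact Commute.zero_right _
    · rw [hT'neg i hi]
      exact Commute.zero_left _
  letI instM : Module HA D.W := Module.compHom D.W (evalEnd T' hT').toRingHom
  have hsmul : ∀ (P : HA) (w : D.W), P • w = evalEnd T' hT' P w := fun _ _ => rfl
  have hρT' : ∀ (g : GQ) (i : ℕ), Commute (D.ρ g) (T' i) := by
    intro g i
    by_cases hi : i.Prime ∧ ¬ i ∣ N ∧ i ∉ S
    · rw [hT'pos i hi]
      exact D.ρ_T g i hi.1 hi.2.1
    · rw [hT'neg i hi]
      exact Commute.zero_right _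
  let R : GQ →* Module.End HA D.W :=
    { toFun := fun g =>
        { toFun := fun w => D.ρ g w
          map_add' := fun a b => map_add _ a b
          map_smul' := fun P w => by
            have h := commute_evalEnd T' hT' (D.ρ g) (hρT' g) P
            have h' := LinearMap.congr_fun h.eq w
            simpa only [hsmul, Module.End.mul_apply, RingHom.id_apply] using h' }
      map_one' := by
        refine LinearMap.ext fun w => ?_
        change D.ρ 1 w = w
        rw [map_one]
        rfl
      map_mul' := fun g h => by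
        refine LinearMap.ext fun w => ?_
        change D.ρ (g * h) w = D.ρ g (D.ρ h w)
        rw [map_mul]
        rfl }
  have hR : ∀ (g : GQ) (w : D.W), R g w = D.ρ g w := fun _ _ => rfl
  have hRone : ∀ g : GQ, D.ρ g = 1 → R g = 1 := by
    intro g hg
    refine LinearMap.ext fun w => ?_
    rw [hR, hg]
    rfl
  have hndvd : ∀ q : ℕ, q.Prime → ¬ q ∣ N → q ≠ p → ¬ q ∣ N * p ^ k := by
    intro q hq hqN hqp h
    rcases (Nat.Prime.dvd_mul hq).mp h with h | h
    · exact hqN h
    · exact hqp ((Nat.prime_dvd_prime_iff_eq hq hp).mp (hq.dvd_of_dvd_pow h))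
  refine ⟨{ W := D.W
            instAddCommGroup := D.instAddCommGroup
            instModule := instM
            ρ := R
            pow_smul := ?_
            finiteLevel := ?_
            unramified := ?_
            eichlerShimura := ?_
            faithful := ?_ }⟩
  · intro w
    apply D.mult.injective
    rw [map_nsmul, map_zero]
    apply Subtype.ext
    refine AddMonoidHom.ext fun γ => ?_
    rw [AddSubgroup.coe_nsmul, AddMonoidHom.nsmul_apply, nsmul_eq_mul, ZMod.natCast_self, zero_mul]
    rfl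
  · obtain ⟨L, hL, h⟩ := D.finiteLevel
    exact ⟨L, hL, fun σ hσ => hRone σ (h σ hσ)⟩
  · intro q hq hqN hqp σ hσ
    exact hRone σ (D.unramified q hq (hndvd q hq hqN hqp) σ hσ)
  · intro l hl hlS σ hσ w
    have hlN : ¬ l ∣ N := fun h => hlS (hNS l hl h)
    have hlp : l ≠ p := fun h => hlS (h ▸ hpS)
    have h := D.eichlerShimura l hl (hndvd l hl hlN hlp) σ hσ w
    rw [hR, hR, hsmul, evalEnd_X, hT'pos l ⟨hl, hlN, hlS⟩]
    exact h
  · intro P hP
    have hP0 : evalEnd T' hT' P = 0 := LinearMap.ext fun w => hP w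
    have h := dvd_aeval_of_evalEnd_eq_zero hn S T' hT' hT'neg D.mult
      (fun l hl hlN hlS w => by
        rw [hT'pos l ⟨hl, hlN, hlS⟩]
        exact D.mult_T l hl hlN w) χ P hP0
    exact Ideal.mem_span_singleton.mpr h

end Fermat.Agent.GAL
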