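/-
Cluster GAL (helper31): what the final assembly exposes to the projects which prove EXTRA properties
of the layers (S34, S35, S36, S33, S44).

* `nonempty_multData`  : the multiplier data of `GAL/TowerE.lean` exist unconditionally;
* `utowerFinal`        : the concrete universal tower (layers `E.W N (p ^ k)`), unconditional;
* `exists_kummerLevel_isModelT`, `modelTStatement : C1.ModelTStatement`;
* `modelStatement : S34.ModelStatement`.
-/
import Fermat.Agent.GAL.Mult.Final
import Fermat.Agent.GAL.TowerE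
import Fermat.Agent.C1.Glue
import Fermat.Agent.S34.Statement

set_option autoImplicit false

namespace Fermat.Agent.GAL

open Fermat.Agent.S30 CongruenceSubgroup Fermat.Agent.Lib.HeckeHom
open Fermat.Agent.S16.Lift (homPE)

/-- The multiplier data exist. -/
theorem nonempty_multData (N : ℕ) [NeZero N] (n : ℕ) (hn : 0 < n) :
    Nonempty (MultData N (E.heckeFam N) n) := by
  obtain ⟨mult, hT⟩ := Mult.exists_multEquiv N n hn
  exact ⟨⟨mult, fun ℓ hℓ hℓN w => @hT ℓ ⟨hℓ.ne_zero⟩ hℓ hℓN _ w⟩⟩

/-- A choice of multiplier data. -/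
noncomputable def multDataFinal (N : ℕ) [NeZero N] (n : ℕ) (hn : 0 < n) :
    MultData N (E.heckeFam N) n := (nonempty_multData N n hn).some

/-- **The concrete universal tower, unconditionally.**  API: `utowerE_*` in `GAL/TowerE.lean`. -/
noncomputable def utowerFinal {N p : ℕ} [NeZero N] (hp : p.Prime) (S : Finset ℕ)
    (hNS : ∀ q : ℕ, q.Prime → q ∣ N → q ∈ S) (hpS : p ∈ S) : UTower N p S :=
  utowerE klStatement hp S hNS hpS fun k => multDataFinal N (p ^ k) (pow_pos hp.pos k)

/-- The Kummer level of block E is the Kummer model, with its Galois action and Hecke operators. -/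
theorem exists_kummerLevel_isModelT (N : ℕ) [NeZero N] (n : ℕ) (hn : 0 < n) :
    ∃ D : KummerLevel N n, C1.IsModelT D := by
  obtain ⟨mult, hT⟩ := Mult.exists_multEquiv N n hn
  refine ⟨E.kummerLevel klStatement N n hn (E.heckeFam N) mult
    (fun ℓ hℓ hℓN w => @hT ℓ ⟨hℓ.ne_zero⟩ hℓ hℓN _ w), AddEquiv.refl _, fun σ w => rfl, ?_⟩
  intro ℓ _ hℓ hℓN
  refine ⟨E.heckeFam N ℓ hℓ hℓN, fun w => ?_⟩
  show (E.kummerLevel klStatement N n hn (E.heckeFam N) mult _).T ℓ w = _
  unfold E.kummerLevel
  simp only
  rw [dif_pos ⟨hℓ, hℓN⟩]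
  rfl

theorem modelTStatement : C1.ModelTStatement :=
  fun N _ p hp k => exists_kummerLevel_isModelT N (p ^ k) (pow_pos hp.out.pos k)

theorem modelStatement : S34.ModelStatement := by
  intro N _ p hp k
  obtain ⟨D, e, he, -⟩ := exists_kummerLevel_isModelT N (p ^ k) (pow_pos hp.out.pos k)
  exact ⟨D, e, he⟩

end Fermat.Agent.GAL
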