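/-
Cluster GAL, block 15 (helper31): the CONCRETE universal tower.

`utowerE hKL hp S hNS hpS H md : UTower N p S` is the universal tower whose `k`-th layer is the
Kummer model `E.W N (p ^ k)` of block E, transported to `Hom_{par,ell}(Γ₀(N), ℤ/p^k)` along the
multiplier isomorphism `(md k).mult`.  The consumers which have to prove EXTRA properties of the
layers (S34, S35, S36, S33, S44) use the API at the end of the file:

* `utowerE_emb`            : `E.W N (p ^ k) ≃+ (utowerE ..).W k`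
* `utowerE_ρ_emb`          : the Galois action is `E.rho N (p ^ k)`
* `utowerE_X_smul_emb`     : `X ℓ` acts as the multiplicative Hecke operator `H.TW` (good `ℓ ∉ S`)
* `utowerE_X_smul_of_bad`  : `X ℓ` acts as `0` for the other indices
* `utowerE_smul_eq_zero`   : a polynomial which vanishes in the Hecke algebra kills all the layers
* `utowerE_induction`      : every element of a layer is `emb x`
-/
import Fermat.Agent.GAL.Tower
import Fermat.Agent.GAL.E.ToPackage

set_option autoImplicit false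
set_option linter.style.haveILetI false

namespace Fermat.Agent.GAL

open Fermat.Agent.S30 CuspForm CongruenceSubgroup Fermat.Agent.Lib.HeckeHom
open Fermat.Agent.S16.Lift (homPE card_homPE)

/-- The multiplier isomorphism (blocks M + NV) at level `N` and exponent `n`, for a family `H` of
multiplicative Hecke operators. -/
structure MultData (N : ℕ) [NeZero N] (H : E.HeckeFam N) (n : ℕ) : Type where
  mult : E.W N n ≃+ homPE N (ZMod n)
  mult_T : ∀ (ℓ : ℕ) (hℓ : ℓ.Prime) (hℓN : ¬ ℓ ∣ N) (w : E.W N n),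
    ((mult (H.TW n ℓ hℓ hℓN w) : homPE N (ZMod n)) : Additive (Gamma0 N) →+ ZMod n) =
      heckeHomT hℓ hℓN ((mult w : homPE N (ZMod n)) : Additive (Gamma0 N) →+ ZMod n)

/-- `MultData` from a bijective additive map with values in all homomorphisms. -/
noncomputable def MultData.ofBijective {N : ℕ} [NeZero N] {H : E.HeckeFam N} {n : ℕ}
    (μ : E.W N n →+ (Additive (Gamma0 N) →+ ZMod n))
    (hinj : Function.Injective μ) (hmem : ∀ w, μ w ∈ homPE N (ZMod n))
    (hsurj : ∀ ψ ∈ homPE N (ZMod n), ∃ w, μ w = ψ)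
    (hT : ∀ (ℓ : ℕ) (hℓ : ℓ.Prime) (hℓN : ¬ ℓ ∣ N) (w : E.W N n),
      μ (H.TW n ℓ hℓ hℓN w) = heckeHomT hℓ hℓN (μ w)) : MultData N H n where
  mult := AddEquiv.ofBijective (μ.codRestrict (homPE N (ZMod n)) hmem)
    ⟨fun a b hab => hinj (congrArg Subtype.val hab), fun ψ => by
      obtain ⟨w, hw⟩ := hsurj ψ.1 ψ.2
      exact ⟨w, Subtype.ext hw⟩⟩
  mult_T := fun ℓ hℓ hℓN w => hT ℓ hℓ hℓN w

/-- The layer of exponent `n` on the Kummer model of block E. -/
noncomputable def LayerData.ofE (hKL : KLStatement) {N : ℕ} [NeZero N] {H : E.HeckeFam N} {n : ℕ}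
    (md : MultData N H n) : LayerData N n where
  W := E.W N n
  rho := E.rho N n
  TT := fun ℓ hℓ hℓN => H.TW n ℓ hℓ hℓN
  commute := fun ℓ hℓ hℓN σ => @E.HeckeOp.commute_rho_TW N ℓ ⟨hℓ.ne_zero⟩ (H ℓ hℓ hℓN) n σ
  level := fun x => E.pkg_openStab N n x
  inertia := fun q hq hqN hqn σ hσ =>
    AddMonoidHom.ext fun w => E.pkg_unramified hKL N n q hq hqN hqn σ hσ w
  eichlerShimura := fun ℓ hℓ hℓN hℓn σ hσ x =>
    @E.pkg_eichlerShimura hKL N ℓ _ ⟨hℓ.ne_zero⟩ (H ℓ hℓ hℓN) n hℓ hℓN hℓn σ hσ x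
  mult := md.mult
  mult_TT := fun ℓ hℓ hℓN x => md.mult_T ℓ hℓ hℓN x

section

variable (hKL : KLStatement) {N p : ℕ} [NeZero N] (hp : p.Prime) (S : Finset ℕ)
  (hNS : ∀ q : ℕ, q.Prime → q ∣ N → q ∈ S) (hpS : p ∈ S) {H : E.HeckeFam N}
  (md : ∀ k : ℕ, MultData N H (p ^ k))

/-- **The concrete universal tower.** -/
noncomputable def utowerE : UTower N p S :=
  utowerOfLayers hp S hNS hpS fun k => LayerData.ofE hKL (md k)

/-- The `k`-th layer is the Kummer model `E.W N (p ^ k)`. -/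
noncomputable def utowerE_emb (k : ℕ) : E.W N (p ^ k) ≃+ (utowerE hKL hp S hNS hpS md).W k :=
  (md k).mult

theorem utowerE_W (k : ℕ) : (utowerE hKL hp S hNS hpS md).W k = homPE N (ZMod (p ^ k)) := rfl

theorem utowerE_emb_apply (k : ℕ) (x : E.W N (p ^ k)) :
    utowerE_emb hKL hp S hNS hpS md k x = (md k).mult x := rfl

/-- Every element of a layer comes from the Kummer model. -/
theorem utowerE_induction (k : ℕ) {motive : (utowerE hKL hp S hNS hpS md).W k → Prop}
    (h : ∀ x : E.W N (p ^ k), motive (utowerE_emb hKL hp S hNS hpS md k x))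
    (w : (utowerE hKL hp S hNS hpS md).W k) : motive w := by
  obtain ⟨x, rfl⟩ := (utowerE_emb hKL hp S hNS hpS md k).surjective w
  exact h x

/-- The Galois action on the layers is the action on the Kummer model. -/
theorem utowerE_ρ_emb (k : ℕ) (σ : GQ) (x : E.W N (p ^ k)) :
    (utowerE hKL hp S hNS hpS md).ρ k σ (utowerE_emb hKL hp S hNS hpS md k x) =
      utowerE_emb hKL hp S hNS hpS md k (E.rho N (p ^ k) σ x) :=
  (LayerData.ofE hKL (md k)).r_mult σ x

/-- The variable `X ℓ` acts as the multiplicative Hecke operator. -/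
theorem utowerE_X_smul_emb (k : ℕ) {ℓ : ℕ} (hℓ : ℓ.Prime) (hℓN : ¬ ℓ ∣ N)
    (hℓS : ℓ ∉ (↑S : Set ℕ)) (x : E.W N (p ^ k)) :
    (MvPolynomial.X ℓ : HA) • utowerE_emb hKL hp S hNS hpS md k x =
      utowerE_emb hKL hp S hNS hpS md k (H.TW (p ^ k) ℓ hℓ hℓN x) :=
  (LayerData.ofE hKL (md k)).X_smul_mult S hℓ hℓN hℓS x

/-- The variables at the bad indices act as zero. -/
theorem utowerE_X_smul_of_bad (k : ℕ) {ℓ : ℕ} (h : ¬ (ℓ.Prime ∧ ¬ ℓ ∣ N ∧ ℓ ∉ (↑S : Set ℕ)))
    (w : (utowerE hKL hp S hNS hpS md).W k) : (MvPolynomial.X ℓ : HA) • w = 0 :=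
  X_smul_of_bad S h w

/-- The action of `ℤ[X_ℓ]` on the layers factors through the Hecke algebra. -/
theorem utowerE_smul_eq_zero (k : ℕ) (P : HA) (hP : MvPolynomial.aeval (heckeFun N S) P = 0)
    (w : (utowerE hKL hp S hNS hpS md).W k) : P • w = 0 := by
  have h3 : MvPolynomial.aeval (heckeFun N S) P = polyHom N (↑S : Set ℕ) P := by
    have : heckeFun N S = tOf N (↑S : Set ℕ) := by
      funext ℓ
      by_cases h : ℓ.Prime ∧ ¬ ℓ ∣ N ∧ ℓ ∉ (↑S : Set ℕ)
      · rw [heckeFun_eq h.1 h.2.1 h.2.2, tOf_eq N _ h.1 h.2.1 h.2.2]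
      · unfold heckeFun tOf
        rw [dif_neg h, dif_neg h]
    rw [this]
    rfl
  have h4 : P • w = actMod N (↑S : Set ℕ) (p ^ k) (polyHom N (↑S : Set ℕ) P) w := rfl
  rw [h4, ← h3, hP, map_zero]
  rfl

/-- The layers are finite. -/
theorem utowerE_finite (k : ℕ) : Finite ((utowerE hKL hp S hNS hpS md).W k) :=
  Nat.finite_of_card_ne_zero (by
    show Nat.card (homPE N (ZMod (p ^ k))) ≠ 0
    rw [card_homPE N (p ^ k) (pow_pos hp.pos k)]
    exact pow_ne_zero _ (pow_pos hp.pos k).ne')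

end

/-- The Kummer levels of helper216's interface from the same inputs. -/
theorem nonempty_kummerLevel_of_multData (hKL : KLStatement) {N : ℕ} [NeZero N]
    {H : E.HeckeFam N} {n : ℕ} (hn : 0 < n) (md : MultData N H n) :
    Nonempty (KummerLevel N n) :=
  ⟨E.kummerLevel hKL N n hn H md.mult md.mult_T⟩

end Fermat.Agent.GAL
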