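/-
Cluster GAL (helper31): the layers `Fermat.Agent.S30.Level` of an eigensystem from the universal
tower.
-/
import Fermat.Agent.GAL.UTower

set_option autoImplicit false

namespace Fermat.Agent.GAL

open Fermat.Agent.S30 CuspForm Polynomial

/-- Let `R` be a commutative ring acting faithfully on a finite `ℤ`-module `Lam`.  If `t : R` acts as
`c • E` then every ring homomorphism from `R` to an integrally closed domain of characteristic zero
maps `t` to a multiple of `c`. -/
theorem dvd_of_eq_smul {R : Type*} [CommRing R] {Lam : Type*} [AddCommGroup Lam]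
    [Module.Finite ℤ Lam] (ι : R →+* Module.End ℤ Lam) (hι : Function.Injective ι)
    {𝒪 : Type*} [CommRing 𝒪] [IsDomain 𝒪] [IsIntegrallyClosed 𝒪] [CharZero 𝒪] (χ : R →+* 𝒪)
    (t : R) (c : ℕ) (hc : c ≠ 0) (E : Module.End ℤ Lam) (hE : ι t = c • E) :
    (c : 𝒪) ∣ χ t := by
  obtain ⟨f, hf, hfE⟩ := (Module.End.isIntegral (R := ℤ) (M := Lam)).isIntegral E
  rw [← aeval_def] at hfE
  have h1 : aeval (ι t) (scaleRoots f (c : ℤ)) = 0 := by
    have := scaleRoots_aeval_eq_zero (r := (c : ℤ)) hfE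
    rw [hE]
    convert this using 2
    ext v
    simp
  have h2 : aeval t (scaleRoots f (c : ℤ)) = 0 := by
    apply hι
    rw [map_zero, ← h1]
    exact (aeval_algHom_apply ι.toIntAlgHom t _).symm
  have h3 : aeval (χ t) (scaleRoots f (c : ℤ)) = 0 := by
    have := aeval_algHom_apply χ.toIntAlgHom t (scaleRoots f (c : ℤ))
    rw [h2, map_zero] at this
    exact this
  let K := FractionRing 𝒪
  have hcK : ((c : ℤ) : K) ≠ 0 := by
    simpa using hc
  have h4 : aeval (algebraMap 𝒪 K (χ t) / ((c : ℤ) : K)) f = 0 := by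
    have h5 := scaleRoots_eval₂_mul (p := f) (algebraMap ℤ K)
      (algebraMap 𝒪 K (χ t) / ((c : ℤ) : K)) (c : ℤ)
    have h6 : algebraMap ℤ K (c : ℤ) * (algebraMap 𝒪 K (χ t) / ((c : ℤ) : K)) =
        algebraMap 𝒪 K (χ t) := by
      rw [eq_intCast]
      exact mul_div_cancel₀ _ hcK
    rw [h6, ← aeval_def, ← aeval_def, aeval_algebraMap_apply, h3, map_zero] at h5
    rcases mul_eq_zero.mp h5.symm with h7 | h7
    · rw [eq_intCast] at h7
      exact absurd (eq_zero_of_pow_eq_zero h7) hcK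
    · exact h7
  have h8 : IsIntegral 𝒪 (algebraMap 𝒪 K (χ t) / ((c : ℤ) : K)) :=
    (IsIntegral.tower_top (A := 𝒪) ⟨f, hf, by rw [← aeval_def]; exact h4⟩)
  obtain ⟨y, hy⟩ := IsIntegrallyClosed.isIntegral_iff.mp h8
  refine ⟨y, ?_⟩
  apply IsFractionRing.injective 𝒪 K
  rw [map_mul, hy, map_natCast]
  have : ((c : ℕ) : K) = ((c : ℤ) : K) := by simp
  rw [this]
  exact (mul_div_cancel₀ _ hcK).symm

variable {N p : ℕ} [NeZero N] {S : Finset ℕ}

/-- The layers attached to an eigensystem `χ`. -/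
noncomputable def UTower.level (U : UTower N p S) (hp : p ≠ 0)
    {𝒪 : Type} [CommRing 𝒪] [IsDomain 𝒪] [IsIntegrallyClosed 𝒪] [CharZero 𝒪]
    (χ : heckeAlgebra N 2 (↑S : Set ℕ) →+* 𝒪) (k : ℕ) :
    Level N p S (fun ℓ => χ (heckeFun N S ℓ)) k where
  W := U.W k
  ρ := U.ρ k
  pow_smul := U.pow_smul k
  finiteLevel := U.finiteLevel k
  unramified := U.unramified k
  eichlerShimura := U.eichlerShimura k
  faithful := by
    intro P hP
    obtain ⟨E, hE⟩ := U.faithful k P hP
    have h := dvd_of_eq_smul U.ι U.ι_injective χ _ (p ^ k) (pow_ne_zero k hp) E hE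
    rw [Ideal.mem_span_singleton]
    have h2 : MvPolynomial.aeval (fun ℓ => χ (heckeFun N S ℓ)) P =
        χ (MvPolynomial.aeval (heckeFun N S) P) := by
      have := MvPolynomial.map_aeval (heckeFun N S) χ P
      rw [this, MvPolynomial.aeval_def]
      congr 1
      exact Subsingleton.elim _ _
    rw [h2]
    exact h

end Fermat.Agent.GAL
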